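import Mathlib

/-!
# S17 / GS : abstract Galois descent by dual bases

A finite dimensional subspace `W` of a space `V` with a separating family of functionals `c i`
(for us: the `q`-coefficients), stable under semilinear maps `s σ` which are compatible with the
`c i`, is spanned by vectors fixed by all `s σ`: choose `c i₁, …, c i_r` forming a basis of the
dual of `W`; the dual basis of `W` is fixed.
-/

set_option autoImplicit false
set_option linter.style.haveILetI false

namespace Fermat.Agent.S17

theorem Descent_span_eq_top {K W ι : Type*} [Field K] [AddCommGroup W] [Module K W]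
    [Module.Finite K W] (c : ι → Module.Dual K W) (hc : ∀ v : W, (∀ i, c i v = 0) → v = 0) :
    Submodule.span K (Set.range c) = ⊤ := by
  have h1 : (Submodule.span K (Set.range c)).dualCoannihilator = ⊥ := by
    rw [eq_bot_iff]
    intro x hx
    rw [Submodule.mem_dualCoannihilator] at hx
    exact hc x fun i => hx _ (Submodule.subset_span ⟨i, rfl⟩)
  rw [← Subspace.dualCoannihilator_dualAnnihilator_eq (W := Submodule.span K (Set.range c)), h1,
    Submodule.dualAnnihilator_bot]

/-- abstract Galois descent. -/
theorem Descent_abstract {K V ι S : Type*} [Field K] [AddCommGroup V] [Module K V]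
    (c : ι → V →ₗ[K] K) (hc : ∀ v : V, (∀ i, c i v = 0) → v = 0)
    (s : S → V → V) (t : S → K → K) (ht0 : ∀ σ, t σ 0 = 0) (ht1 : ∀ σ, t σ 1 = 1)
    (hcs : ∀ σ i v, c i (s σ v) = t σ (c i v))
    (W : Submodule K V) (hfin : Module.Finite K W) (hW : ∀ σ, ∀ f ∈ W, s σ f ∈ W) :
    W ≤ Submodule.span K {f | f ∈ W ∧ ∀ σ, s σ f = f} := by
  classical
  let c' : ι → Module.Dual K W := fun i => (c i).comp W.subtype
  have hc' : ∀ v : W, (∀ i, c' i v = 0) → v = 0 := fun v hv => Subtype.ext (hc v hv)
  have hspan := Descent_span_eq_top c' hc'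
  obtain ⟨b, hb, hbspan, hbli⟩ := exists_linearIndependent K (Set.range c')
  rw [hspan] at hbspan
  let B : Module.Basis b K (Module.Dual K W) :=
    Module.Basis.mk hbli (by rw [Subtype.range_coe, hbspan])
  have hBi : ∀ i : b, B i = (i : Module.Dual K W) := fun i => by simp [B]
  haveI : Finite b := Module.Finite.finite_basis B
  haveI : Fintype b := Fintype.ofFinite b
  let w : Module.Basis b K W := B.dualBasis.map (Module.evalEquiv K W).symm
  have hw : ∀ i j : b, (i : Module.Dual K W) (w j) = if i = j then 1 else 0 := by
    intro i j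
    have h1 : (i : Module.Dual K W) (w j) = B.dualBasis j (B i) := by
      rw [hBi]
      simp only [w, Module.Basis.map_apply]
      exact Module.apply_evalEquiv_symm_apply (R := K) (M := W) _ _
    rw [h1, Module.Basis.dualBasis_apply_self]
  have hzero : ∀ u : W, (∀ i : b, (i : Module.Dual K W) u = 0) → u = 0 := by
    intro u hu
    rw [← Module.forall_dual_apply_eq_zero_iff K u]
    intro φ
    have hφ : φ ∈ Submodule.span K b := by rw [hbspan]; trivial
    induction hφ using Submodule.span_induction with
    | mem x hx => exact hu ⟨x, hx⟩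
    | zero => rfl
    | add x y _ _ hx hy => rw [LinearMap.add_apply, hx, hy, add_zero]
    | smul a x _ hx => rw [LinearMap.smul_apply, hx, smul_zero]
  have hfix : ∀ (j : b) (σ : S), s σ (w j : V) = (w j : V) := by
    intro j σ
    have h0 : (⟨s σ (w j : V), hW σ _ (w j).2⟩ : W) - w j = 0 := by
      apply hzero
      intro i
      obtain ⟨k, hk⟩ := hb i.2
      have h1 : c k (w j : V) = if i = j then 1 else 0 := by
        rw [← hw i j, ← hk]
        rfl
      rw [map_sub, ← hk]
      change c k (s σ (w j : V)) - c k (w j : V) = 0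
      rw [hcs, h1]
      split_ifs
      · rw [ht1, sub_self]
      · rw [ht0, sub_self]
    have h1 := congrArg Subtype.val (sub_eq_zero.1 h0)
    exact h1
  intro f hf
  have h1 := w.sum_repr ⟨f, hf⟩
  have h2 : f = ∑ j, (w.repr ⟨f, hf⟩ j) • (w j : V) := by
    have h3 := congrArg (W.subtype) h1
    rw [map_sum] at h3
    simpa only [map_smul, Submodule.subtype_apply] using h3.symm
  rw [h2]
  exact Submodule.sum_mem _ fun j _ =>
    Submodule.smul_mem _ _ (Submodule.subset_span ⟨(w j).2, hfix j⟩)

end Fermat.Agent.S17
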