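import Fermat.Agent.S17.Defs
import Fermat.Agent.S17.GS.Descent
import Fermat.Agent.S18.LevelChange
import Fermat.Agent.S24.Mod.Degree
import Fermat.Agent.GAL.FF.Riemann

/-!
# S17 / GS-INST : `X₀(N)` is a `RatCurve`
-/

set_option autoImplicit false
set_option linter.style.haveILetI false

namespace Fermat.Agent.S17

open AlgebraicCurve ModularCurve Fermat.Agent.S24.FF Fermat.Agent.GAL.FF

section abstract

variable {K F : Type*} [Field K] [Field F] [Algebra K F]

theorem Inst_fixed_of_ord (g : SemilinearAut K F) (v : Place K F)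
    (h : ∀ f : F, v.ord (g • f) = v.ord f) : g • v = v := by
  apply place_ext_of_ord_nonneg
  intro f _
  have h1 := SemilinearAut.ord_smul g v (g⁻¹ • f)
  rw [smul_inv_smul] at h1
  have h2 := h (g⁻¹ • f)
  rw [smul_inv_smul] at h2
  rw [h1, h2]

/-- `L(n v)` is stable under a semilinear automorphism fixing `v`. -/
theorem Inst_stable (g : SemilinearAut K F) (v : Place K F) (hfix : g • v = v) (n : ℤ)
    (f : F) (hf : f ∈ riemannRochSpace (Finsupp.single v n)) :
    g • f ∈ riemannRochSpace (Finsupp.single v n) := by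
  classical
  rw [mem_riemannRochSpace_iff] at hf ⊢
  intro P
  have h := SemilinearAut.ord_smul g (g⁻¹ • P) f
  rw [smul_inv_smul] at h
  rcases hf (g⁻¹ • P) with h0 | h1
  · left
    rw [h0, smul_zero]
  · right
    rw [h]
    have h3 : (Finsupp.single v n : Divisor K F) (g⁻¹ • P) = (Finsupp.single v n : Divisor K F) P := by
      by_cases hP : P = v
      · have : g⁻¹ • P = v := by
          rw [hP, inv_smul_eq_iff, hfix]
        rw [this, hP]
      · have : g⁻¹ • P ≠ v := by
          intro h4
          apply hP
          rw [inv_smul_eq_iff, hfix] at h4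
          exact h4
        rw [Finsupp.single_apply, Finsupp.single_apply, if_neg (Ne.symm this),
          if_neg (Ne.symm hP)]
    rw [← h3]
    exact h1

end abstract

section general

variable (F₀ : IntermediateField ℚ (LaurentSeries ℚ))

/-- the `n`-th `q`-coefficient as a linear functional. -/
noncomputable def Inst_coeff (n : ℤ) : (laurentBaseChange Qb F₀) →ₗ[Qb] Qb where
  toFun f := (f : LaurentSeries Qb).coeff n
  map_add' f g := by simp
  map_smul' a f := by
    rw [Algebra.smul_def, IntermediateField.coe_mul, IntermediateField.coe_algebraMap_apply,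
      algebraMap_laurentSeries_eq_single, HahnSeries.single_zero_mul_eq_smul,
      HahnSeries.coeff_smul]
    rfl

theorem Inst_coeff_apply (n : ℤ) (f : laurentBaseChange Qb F₀) :
    Inst_coeff F₀ n f = (f : LaurentSeries Qb).coeff n := rfl

/-- Galois descent for finite dimensional subspaces of `ℚ̄ F₀ ⊆ ℚ̄((q))`. -/
theorem Inst_descent (W : Submodule Qb (laurentBaseChange Qb F₀)) (hfin : Module.Finite Qb W)
    (hW : ∀ σ : GQ, ∀ f ∈ W, arithmeticGalois F₀ σ • f ∈ W) :
    W ≤ Submodule.span Qb {f | f ∈ W ∧ ∀ σ : GQ, arithmeticGalois F₀ σ • f = f} := by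
  refine Descent_abstract (Inst_coeff F₀) ?_ (fun (σ : GQ) f => arithmeticGalois F₀ σ • f)
    (fun (σ : GQ) a => σ a) (fun σ => map_zero σ) (fun σ => map_one σ) ?_ W hfin hW
  · intro v hv
    apply Subtype.ext
    ext n
    exact hv n
  · intro σ n v
    rw [Inst_coeff_apply, Inst_coeff_apply, coe_arithmeticGalois_smul, coeffMap_coeff]
    rfl

theorem Inst_order_coeffMap (σ : GQ) (x : LaurentSeries Qb) :
    (coeffMap (σ : Qb →+* Qb) x).order = x.order := by
  by_cases hx : x = 0
  · rw [hx, map_zero]
  have hx' : coeffMap (σ : Qb →+* Qb) x ≠ 0 := by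
    intro h
    apply hx
    ext n
    have := congrArg (fun y => HahnSeries.coeff y n) h
    simp only [coeffMap_coeff, HahnSeries.coeff_zero] at this
    simpa using this
  apply le_antisymm
  · apply HahnSeries.order_le_of_coeff_ne_zero
    rw [coeffMap_coeff]
    exact (map_ne_zero _).mpr (HahnSeries.coeff_order_eq_zero.not.mpr hx)
  · apply HahnSeries.order_le_of_coeff_ne_zero
    have := HahnSeries.coeff_order_eq_zero.not.mpr hx'
    rw [coeffMap_coeff] at this
    exact (map_ne_zero _).mp this

/-- the place `q = 0` is fixed by Galois. -/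
theorem Inst_inf_fixed (v : Place Qb (laurentBaseChange Qb F₀))
    (hv : ∀ x : laurentBaseChange Qb F₀, x ≠ 0 → v.ord x = (x : LaurentSeries Qb).order)
    (σ : GQ) : arithmeticGalois F₀ σ • v = v := by
  apply Inst_fixed_of_ord
  intro f
  by_cases hf : f = 0
  · rw [hf, smul_zero]
  have hf' : arithmeticGalois F₀ σ • f ≠ 0 := by
    intro h0
    exact hf ((smul_eq_zero_iff_eq _).1 h0)
  rw [hv _ hf', hv _ hf, coe_arithmeticGalois_smul, Inst_order_coeffMap]

/-- a non-constant rational function with its only pole at `∞`. -/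
theorem Inst_exists_x [IsFF1 Qb (laurentBaseChange Qb F₀)]
    (v : Place Qb (laurentBaseChange Qb F₀))
    (hfix : ∀ σ : GQ, arithmeticGalois F₀ σ • v = v) :
    ∃ x : laurentBaseChange Qb F₀, (∀ σ : GQ, arithmeticGalois F₀ σ • x = x) ∧ v.ord x < 0 ∧
      ∀ P : Place Qb (laurentBaseChange Qb F₀), P ≠ v → 0 ≤ P.ord x := by
  classical
  set g : ℕ := genusFF Qb (laurentBaseChange Qb F₀) with hg
  set D : Divisor Qb (laurentBaseChange Qb F₀) := Finsupp.single v ((g : ℤ) + 1) with hD
  have hdeg : Divisor.degree D = (g : ℤ) + 1 := degree_single_one v _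
  have hell : 2 ≤ ell D := by
    have := riemann_ineq D
    rw [hdeg] at this
    omega
  have hdesc := Inst_descent F₀ (riemannRochSpace D) inferInstance
    (fun σ f hf => Inst_stable _ v (hfix σ) _ f hf)
  by_contra hcon
  push Not at hcon
  -- every rational element of `L(D)` is constant
  have hconst : ∀ f ∈ riemannRochSpace D, (∀ σ : GQ, arithmeticGalois F₀ σ • f = f) →
      f ∈ riemannRochSpace (0 : Divisor Qb (laurentBaseChange Qb F₀)) := by
    intro f hf hfx
    rw [mem_riemannRochSpace_iff] at hf ⊢
    have hreg : ∀ P : Place Qb (laurentBaseChange Qb F₀), P ≠ v → 0 ≤ P.ord f := by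
      intro P hP
      rcases hf P with h0 | h1
      · rw [h0]; simp
      · rw [hD, Finsupp.single_apply, if_neg (Ne.symm hP)] at h1
        simpa using h1
    intro P
    right
    by_cases hP : P = v
    · by_contra hlt
      rw [hP] at hlt
      simp only [Finsupp.coe_zero, Pi.zero_apply, neg_zero, not_le] at hlt
      obtain ⟨Q, hQ, hQ'⟩ := hcon f hfx hlt
      exact absurd (hreg Q hQ) (not_le.2 hQ')
    · simpa using hreg P hP
  have hle : riemannRochSpace D ≤ riemannRochSpace (0 : Divisor Qb (laurentBaseChange Qb F₀)) := by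
    refine hdesc.trans (Submodule.span_le.2 ?_)
    rintro f ⟨hf, hfx⟩
    exact hconst f hf hfx
  have h1 : ell D ≤ ell (0 : Divisor Qb (laurentBaseChange Qb F₀)) := Submodule.finrank_mono hle
  rw [ell_zero] at h1
  omega

end general

/-- **GS-INST.** `X₀(N)` is a `RatCurve` whose Mordell–Weil group is `Gam N`. -/
theorem exists_ratCurve (N : ℕ) [NeZero N] :
    ∃ X : RatCurve, Nonempty (X.Gam ≃+ Gam N) := by
  haveI : IsFF1 Qb (laurentBaseChange Qb (modularFunctionFieldFull N)) :=
    Fermat.Agent.S24.instIsFF1FN N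
  obtain ⟨v, hv⟩ := Fermat.Agent.S18.exists_placeInfty N
  have hfix := Inst_inf_fixed (modularFunctionFieldFull N) v hv
  obtain ⟨x, hx1, hx2, hx3⟩ := Inst_exists_x (modularFunctionFieldFull N) v hfix
  refine ⟨{ F := modularFunctionFieldBar N
            act := arithmeticGalois (modularFunctionFieldFull N)
            baseAut_act := fun σ => rfl
            inf := v
            inf_fixed := hfix
            descent := fun W hW h => Inst_descent (modularFunctionFieldFull N) W hW h
            x := x
            x_fixed := hx1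
            x_pole := hx2
            x_reg := hx3 }, ⟨?_⟩⟩
  exact
    { toFun := fun y => ⟨y.1, fun σ => y.2 σ⟩
      invFun := fun y => ⟨y.1, fun σ => y.2 σ⟩
      left_inv := fun _ => rfl
      right_inv := fun _ => rfl
      map_add' := fun _ _ => rfl }

end Fermat.Agent.S17
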